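import Mathlib
import Fermat.Prelude.Def_FLTPrelim_Modularity
import Fermat.Prelude.Def_CuspForm_IntegralLattice
import Fermat.Prelude.Def_CuspForm_IntegralStructure
import Fermat.Prelude.Def_CuspForm_HeckeAlgebra
import Fermat.Prelude.Thm_CuspForm_intLattice_fg
import Fermat.Prelude.Thm_CuspForm_mem_intLattice_of_mem_heckeAlgebra
import Fermat.Prelude.Thm_ModularFormClass_qCoeff_heckeT
import Fermat.Prelude.Thm_ModularFormClass_qCoeff_heckeU
import Fermat.Prelude.Thm_CongruenceSubgroup_one_mem_strictPeriods_Gamma0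
import Fermat.Prelude.Thm_ModularForm_sturm_bound_Gamma0

/-!
# S49, part 1: q-coefficients of weight 2 cusp forms on `Γ₀(N)` as a linear map
-/

set_option autoImplicit false

noncomputable section

namespace Fermat.Agent.S49.Forms

open CongruenceSubgroup ModularFormClass UpperHalfPlane

variable {N : ℕ}

theorem one_mem_periods (N : ℕ) :
    (1 : ℝ) ∈ (Subgroup.map (Matrix.SpecialLinearGroup.mapGL ℝ) (Gamma0 N)).strictPeriods :=
  CongruenceSubgroup.one_mem_strictPeriods_Gamma0 N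

theorem qc_add (f g : CuspForm (Gamma0 N) 2) (n : ℕ) :
    qCoeff ⇑(f + g) n = qCoeff ⇑f n + qCoeff ⇑g n := by
  simp only [qCoeff, FunLike.coe_add]
  rw [ModularForm.qExpansion_add one_pos (one_mem_periods N) f g, map_add]

theorem qc_smul (c : ℂ) (f : CuspForm (Gamma0 N) 2) (n : ℕ) :
    qCoeff ⇑(c • f) n = c * qCoeff ⇑f n := by
  have h1 : ⇑(c • f) = c • ⇑f := by
    ext z
    simp
  simp only [qCoeff, h1]
  rw [ModularForm.qExpansion_smul one_pos (one_mem_periods N) c f]
  simp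

theorem qc_zero_index (f : CuspForm (Gamma0 N) 2) : qCoeff ⇑f 0 = 0 :=
  CuspFormClass.qExpansion_coeff_zero f one_pos (one_mem_periods N)

/-- The q-coefficient map as a `ℂ`-linear map. -/
def qLin (N : ℕ) : CuspForm (Gamma0 N) 2 →ₗ[ℂ] (ℕ → ℂ) where
  toFun f n := qCoeff ⇑f n
  map_add' f g := by
    funext n
    exact qc_add f g n
  map_smul' c f := by
    funext n
    simp only [RingHom.id_apply, Pi.smul_apply, smul_eq_mul]
    exact qc_smul c f n

@[simp] theorem qLin_apply (f : CuspForm (Gamma0 N) 2) (n : ℕ) : qLin N f n = qCoeff ⇑f n := rfl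

theorem qc_sub (f g : CuspForm (Gamma0 N) 2) (n : ℕ) :
    qCoeff ⇑(f - g) n = qCoeff ⇑f n - qCoeff ⇑g n := by
  have := congrFun (map_sub (qLin N) f g) n
  simpa using this

theorem qc_zero_form (n : ℕ) : qCoeff ⇑(0 : CuspForm (Gamma0 N) 2) n = 0 := by
  have := congrFun (map_zero (qLin N)) n
  simpa using this

theorem eq_zero_of_qc [NeZero N] (f : CuspForm (Gamma0 N) 2) (h : ∀ n, qCoeff ⇑f n = 0) :
    f = 0 := by
  have hmf : (ModularFormClass.modularForm f : ModularForm (Gamma0 N) 2) = 0 := by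
    refine ModularForm.sturm_bound_Gamma0 N _ fun n _ ↦ ?_
    simpa [qCoeff] using h n
  have hcoe : (⇑f : ℍ → ℂ) = 0 := by
    have := congrArg (fun F : ModularForm (Gamma0 N) 2 ↦ (⇑F : ℍ → ℂ)) hmf
    simpa using this
  exact DFunLike.coe_injective (hcoe.trans FunLike.coe_zero.symm)

theorem qLin_injective (N : ℕ) [NeZero N] : Function.Injective (qLin N) := by
  refine (injective_iff_map_eq_zero _).mpr fun f hf ↦ eq_zero_of_qc f fun n ↦ ?_
  simpa using congrFun hf n

theorem qc_heckeT {p : ℕ} (hp : p.Prime) (hpN : ¬ p ∣ N) (f : CuspForm (Gamma0 N) 2) (n : ℕ) :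
    qCoeff ⇑(CuspForm.heckeTLin 2 hp hpN f) n =
      qCoeff ⇑f (n * p) + if p ∣ n then (p : ℂ) * qCoeff ⇑f (n / p) else 0 := by
  rw [CuspForm.coe_heckeTLin_apply, ModularFormClass.qCoeff_heckeT f (one_mem_periods N) hp.ne_zero,
    ModularForm.coeffHeckeT_apply]
  norm_num

theorem qc_heckeU [NeZero N] {p : ℕ} (hp : p.Prime) (hpN : p ∣ N) (f : CuspForm (Gamma0 N) 2)
    (n : ℕ) :
    qCoeff ⇑(CuspForm.heckeULin 2 hpN f) n = qCoeff ⇑f (n * p) := by
  rw [CuspForm.coe_heckeULin_apply, ModularFormClass.qCoeff_heckeU f (one_mem_periods N) hp.ne_zero,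
    ModularForm.coeffHeckeU_apply]

end Fermat.Agent.S49.Forms

end
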