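import Mathlib

/-!
# Deligne–Serre lifting lemma (abstract form), used for S49.

`exists_common_eigenvector_of_prime`: a commutative ring acting on a nonzero finite-dimensional
vector space over an algebraically closed field has a common eigenvector whose character has
kernel inside a prescribed prime ideal containing the kernel of the action.
-/

set_option autoImplicit false

namespace Fermat.Agent.S49h91

open Module

section Eigen

variable {K : Type*} [Field K] [IsAlgClosed K] {V : Type*} [AddCommGroup V] [Module K V]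
  [FiniteDimensional K V] {𝕋 : Type*} [CommRing 𝕋]

theorem exists_common_eigenvector_aux (ρ : 𝕋 →+* Module.End K V) (m₀ : Ideal 𝕋) [m₀.IsPrime] :
    ∀ n : ℕ, ∀ W : Submodule K V, finrank K W = n → W ≠ ⊥ →
      (∀ t : 𝕋, ∀ w ∈ W, ρ t w ∈ W) →
      (∀ t : 𝕋, (∀ w ∈ W, ρ t w = 0) → t ∈ m₀) →
      ∃ v : V, v ≠ 0 ∧ ∃ χ : 𝕋 → K, (∀ t, ρ t v = χ t • v) ∧ ∀ t, χ t = 0 → t ∈ m₀ := by
  intro n
  induction n using Nat.strong_induction_on with
  | _ n ih =>
  intro W hn hW hinv hker
  by_cases hsc : ∀ t : 𝕋, ∃ μ : K, ∀ w ∈ W, ρ t w = μ • w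
  · choose χ hχ using hsc
    obtain ⟨v, hvW, hv0⟩ := Submodule.exists_mem_ne_zero_of_ne_bot hW
    refine ⟨v, hv0, χ, fun t => hχ t v hvW, fun t ht => hker t fun w hw => ?_⟩
    rw [hχ t w hw, ht, zero_smul]
  · push Not at hsc
    obtain ⟨t, ht⟩ := hsc
    have hmaps : Set.MapsTo (ρ t) W W := fun w hw => hinv t w hw
    have : Nontrivial W := Submodule.nontrivial_iff_ne_bot.mpr hW
    obtain ⟨μ, hμ⟩ := Module.End.exists_eigenvalue ((ρ t).restrict hmaps)
    obtain ⟨w₁, hw₁⟩ := hμ.exists_hasEigenvector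
    have hw₁0 : (w₁ : V) ≠ 0 := fun h => hw₁.2 (Subtype.ext h)
    have hw₁e : ρ t (w₁ : V) = μ • (w₁ : V) := by
      have := hw₁.apply_eq_smul
      exact congrArg Subtype.val this
    obtain ⟨w₂, hw₂W, hw₂⟩ := ht μ
    -- the operator D = ρ t - μ
    set D : Module.End K V := ρ t - μ • (1 : Module.End K V) with hD
    have hDapp : ∀ x, D x = ρ t x - μ • x := fun x => by
      simp [hD]
    have hcomm : ∀ s : 𝕋, ∀ x, D (ρ s x) = ρ s (D x) := by
      intro s x
      rw [hDapp, hDapp, map_sub, map_smul]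
      congr 1
      rw [← Module.End.mul_apply, ← Module.End.mul_apply, ← map_mul, ← map_mul, mul_comm]
    have hDW : ∀ w ∈ W, D w ∈ W := fun w hw => by
      rw [hDapp]; exact W.sub_mem (hinv t w hw) (W.smul_mem μ hw)
    let W₁ : Submodule K V := W ⊓ LinearMap.ker D
    let W₂ : Submodule K V := W.map D
    have hW₁le : W₁ ≤ W := inf_le_left
    have hW₂le : W₂ ≤ W := by
      rintro _ ⟨w, hw, rfl⟩; exact hDW w hw
    have hW₁ne : W₁ ≠ ⊥ := by
      intro h
      have : (w₁ : V) ∈ W₁ := Submodule.mem_inf.mpr ⟨w₁.2, LinearMap.mem_ker.mpr (by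
        rw [hDapp, hw₁e, sub_self])⟩
      rw [h, Submodule.mem_bot] at this
      exact hw₁0 this
    have hW₂ne : W₂ ≠ ⊥ := by
      intro h
      have : D w₂ ∈ W₂ := ⟨w₂, hw₂W, rfl⟩
      rw [h, Submodule.mem_bot, hDapp, sub_eq_zero] at this
      exact hw₂ this
    have hW₁lt : W₁ < W := by
      refine lt_of_le_of_ne hW₁le fun h => ?_
      have : w₂ ∈ W₁ := h ▸ hw₂W
      have h2 := LinearMap.mem_ker.mp (Submodule.mem_inf.mp this).2
      rw [hDapp, sub_eq_zero] at h2
      exact hw₂ h2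
    have hW₂lt : W₂ < W := by
      refine lt_of_le_of_ne hW₂le fun h => ?_
      -- D restricted to W is surjective, hence injective, contradiction with w₁
      have hDmaps : Set.MapsTo D W W := fun w hw => hDW w hw
      have hsurj : Function.Surjective (D.restrict hDmaps) := by
        rintro ⟨y, hy⟩
        have hy' : y ∈ W₂ := h ▸ hy
        obtain ⟨x, hx, rfl⟩ := hy'
        exact ⟨⟨x, hx⟩, Subtype.ext rfl⟩
      have hinj : Function.Injective (D.restrict hDmaps) :=
        LinearMap.injective_iff_surjective.mpr hsurj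
      have h0 : D.restrict hDmaps w₁ = 0 := by
        apply Subtype.ext
        show D (w₁ : V) = 0
        rw [hDapp, hw₁e, sub_self]
      have := hinj (h0.trans (map_zero _).symm)
      exact hw₁.2 this
    have hW₁inv : ∀ s : 𝕋, ∀ w ∈ W₁, ρ s w ∈ W₁ := by
      intro s w hw
      have h1 := (Submodule.mem_inf.mp hw).1
      have h2 := LinearMap.mem_ker.mp (Submodule.mem_inf.mp hw).2
      refine Submodule.mem_inf.mpr ⟨hinv s w h1, LinearMap.mem_ker.mpr ?_⟩
      rw [hcomm, h2, map_zero]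
    have hW₂inv : ∀ s : 𝕋, ∀ w ∈ W₂, ρ s w ∈ W₂ := by
      rintro s _ ⟨w, hw, rfl⟩
      exact ⟨ρ s w, hinv s w hw, hcomm s w⟩
    have hfin₁ : finrank K W₁ < n := hn ▸ Submodule.finrank_lt_finrank_of_lt hW₁lt
    have hfin₂ : finrank K W₂ < n := hn ▸ Submodule.finrank_lt_finrank_of_lt hW₂lt
    by_cases h₁ : ∀ s : 𝕋, (∀ w ∈ W₁, ρ s w = 0) → s ∈ m₀
    · exact ih _ hfin₁ W₁ rfl hW₁ne hW₁inv h₁
    by_cases h₂ : ∀ s : 𝕋, (∀ w ∈ W₂, ρ s w = 0) → s ∈ m₀
    · exact ih _ hfin₂ W₂ rfl hW₂ne hW₂inv h₂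
    exfalso
    push Not at h₁ h₂
    obtain ⟨s₁, hs₁, hs₁m⟩ := h₁
    obtain ⟨s₂, hs₂, hs₂m⟩ := h₂
    have hprod : s₁ * s₂ ∈ m₀ := by
      apply hker
      intro w hw
      rw [map_mul, Module.End.mul_apply]
      apply hs₁
      refine Submodule.mem_inf.mpr ⟨hinv s₂ w hw, LinearMap.mem_ker.mpr ?_⟩
      rw [hcomm]
      exact hs₂ _ ⟨w, hw, rfl⟩
    rcases Ideal.IsPrime.mem_or_mem inferInstance hprod with h | h
    · exact hs₁m h
    · exact hs₂m h

/-- A commutative ring acting on a nonzero finite-dimensional vector space over an algebraically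
closed field has a common eigenvector whose eigencharacter vanishes only on a given prime ideal
containing the kernel of the action. -/
theorem exists_common_eigenvector_of_prime [Nontrivial V] (ρ : 𝕋 →+* Module.End K V)
    (m₀ : Ideal 𝕋) [m₀.IsPrime] (hker : ∀ t : 𝕋, ρ t = 0 → t ∈ m₀) :
    ∃ v : V, v ≠ 0 ∧ ∃ χ : 𝕋 →+* K, (∀ t, ρ t v = χ t • v) ∧ ∀ t, χ t = 0 → t ∈ m₀ := by
  obtain ⟨v, hv, χ, hχ, hχm⟩ := exists_common_eigenvector_aux ρ m₀ _ (⊤ : Submodule K V) rfl
    top_ne_bot (fun _ _ _ => Submodule.mem_top)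
    (fun t ht => hker t (LinearMap.ext fun w => ht w Submodule.mem_top))
  have huniq : ∀ (a b : K), a • v = b • v → a = b := fun a b h => by
    have : (a - b) • v = 0 := by rw [sub_smul, h, sub_self]
    rcases smul_eq_zero.mp this with h | h
    · exact sub_eq_zero.mp h
    · exact absurd h hv
  refine ⟨v, hv, ⟨⟨⟨χ, ?_⟩, ?_⟩, ?_, ?_⟩, hχ, hχm⟩
  · apply huniq
    rw [← hχ, map_one, Module.End.one_apply, one_smul]
  · intro s t
    apply huniq
    rw [← hχ, map_mul, Module.End.mul_apply, hχ t, map_smul, hχ s, smul_smul, mul_comm]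
  · apply huniq
    show χ 0 • v = (0 : K) • v
    rw [← hχ, map_zero, LinearMap.zero_apply, zero_smul]
  · intro s t
    apply huniq
    show χ (s + t) • v = (χ s + χ t) • v
    rw [← hχ, map_add, LinearMap.add_apply, hχ s, hχ t, add_smul]

end Eigen

end Fermat.Agent.S49h91
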