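import Fermat.Agent.S49.Basic

/-!
# S49, part 3: the subgroup of forms with algebraic-integer q-coefficients, Hecke stability
-/

set_option autoImplicit false

noncomputable section

namespace Fermat.Agent.S49.Forms

open CongruenceSubgroup ModularFormClass UpperHalfPlane

variable {N : ℕ}

/-- Cusp forms all of whose q-coefficients are algebraic integers. -/
def algIntForms (N : ℕ) : AddSubgroup (CuspForm (Gamma0 N) 2) where
  carrier := {f | ∀ n : ℕ, IsIntegral ℤ (qCoeff ⇑f n)}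
  zero_mem' n := by
    simp only [qc_zero_form]
    exact isIntegral_zero
  add_mem' {f g} hf hg n := by
    rw [qc_add]
    exact (hf n).add (hg n)
  neg_mem' {f} hf n := by
    have : -f = (-1 : ℂ) • f := by simp
    rw [this, qc_smul]
    exact (isIntegral_one.neg).mul (hf n)

theorem mem_algIntForms (f : CuspForm (Gamma0 N) 2) :
    f ∈ algIntForms N ↔ ∀ n : ℕ, IsIntegral ℤ (qCoeff ⇑f n) := Iff.rfl

theorem algIntForms_smul (z : ℂ) (hz : IsIntegral ℤ z) (f : CuspForm (Gamma0 N) 2)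
    (hf : f ∈ algIntForms N) : z • f ∈ algIntForms N := by
  intro n
  rw [qc_smul]
  exact hz.mul (hf n)

theorem algIntForms_heckeT {p : ℕ} (hp : p.Prime) (hpN : ¬ p ∣ N) (f : CuspForm (Gamma0 N) 2)
    (hf : f ∈ algIntForms N) : CuspForm.heckeTLin 2 hp hpN f ∈ algIntForms N := by
  intro n
  rw [qc_heckeT]
  refine (hf _).add ?_
  split_ifs
  · have hpint : IsIntegral ℤ (p : ℂ) := by
      have := isIntegral_algebraMap (R := ℤ) (A := ℂ) (x := (p : ℤ))
      simpa using this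
    exact hpint.mul (hf _)
  · exact isIntegral_zero

theorem algIntForms_heckeU [NeZero N] {p : ℕ} (hp : p.Prime) (hpN : p ∣ N)
    (f : CuspForm (Gamma0 N) 2) (hf : f ∈ algIntForms N) :
    CuspForm.heckeULin 2 hpN f ∈ algIntForms N := by
  intro n
  rw [qc_heckeU hp]
  exact hf _

/-- The Hecke family indexed by primes: `U_ℓ` if `ℓ ∣ N`, `T_ℓ` otherwise. -/
def heckeFam (N : ℕ) [NeZero N] (ℓ : Nat.Primes) : Module.End ℂ (CuspForm (Gamma0 N) 2) :=
  if h : (ℓ : ℕ) ∣ N then CuspForm.heckeULin 2 h else CuspForm.heckeTLin 2 ℓ.2 h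

theorem heckeFam_of_dvd [NeZero N] {ℓ : Nat.Primes} (h : (ℓ : ℕ) ∣ N) :
    heckeFam N ℓ = CuspForm.heckeULin 2 h := dif_pos h

theorem heckeFam_of_not_dvd [NeZero N] {ℓ : Nat.Primes} (h : ¬ (ℓ : ℕ) ∣ N) :
    heckeFam N ℓ = CuspForm.heckeTLin 2 ℓ.2 h := dif_neg h

theorem heckeFam_mem_generators [NeZero N] (ℓ : Nat.Primes) :
    heckeFam N ℓ ∈ CuspForm.heckeGenerators N 2 ∅ := by
  by_cases h : (ℓ : ℕ) ∣ N
  · rw [heckeFam_of_dvd h]
    exact CuspForm.heckeULin_mem_heckeGenerators ℓ.2 h (Set.notMem_empty _)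
  · rw [heckeFam_of_not_dvd h]
    exact CuspForm.heckeTLin_mem_heckeGenerators ℓ.2 h (Set.notMem_empty _)

theorem heckeFam_commute [NeZero N] (ℓ ℓ' : Nat.Primes) :
    Commute (heckeFam N ℓ) (heckeFam N ℓ') :=
  CuspForm.commute_of_mem_heckeGenerators (heckeFam_mem_generators ℓ) (heckeFam_mem_generators ℓ')

theorem algIntForms_heckeFam [NeZero N] (ℓ : Nat.Primes) (f : CuspForm (Gamma0 N) 2)
    (hf : f ∈ algIntForms N) : heckeFam N ℓ f ∈ algIntForms N := by
  by_cases h : (ℓ : ℕ) ∣ N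
  · rw [heckeFam_of_dvd h]
    exact algIntForms_heckeU ℓ.2 h f hf
  · rw [heckeFam_of_not_dvd h]
    exact algIntForms_heckeT ℓ.2 h f hf

/-- q-coefficients of `heckeFam N ℓ f`. -/
theorem qc_heckeFam [NeZero N] (ℓ : Nat.Primes) (f : CuspForm (Gamma0 N) 2) (n : ℕ) :
    qCoeff ⇑(heckeFam N ℓ f) n =
      qCoeff ⇑f (n * ℓ) +
        (if (ℓ : ℕ) ∣ N then 0 else (ℓ : ℂ)) * (if (ℓ : ℕ) ∣ n then qCoeff ⇑f (n / ℓ) else 0) := by
  by_cases h : (ℓ : ℕ) ∣ N
  · rw [heckeFam_of_dvd h, qc_heckeU ℓ.2, if_pos h, zero_mul, add_zero]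
  · rw [heckeFam_of_not_dvd h, qc_heckeT, if_neg h]
    split_ifs <;> simp

end Fermat.Agent.S49.Forms

end
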