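import Mathlib
import Fermat.Agent.S49.H91Eigen

/-!
# Deligne–Serre lifting lemma over `ℤ` (abstract form), used for S49.
-/

set_option autoImplicit false

namespace Fermat.Agent.S49h91

open Module Polynomial

section Lifting

variable {V : Type*} [AddCommGroup V] [Module ℂ V]
  {𝕋 : Type*} [CommRing 𝕋]

/-- The ideal of operators sending `f` into `p • Λ`. -/
def congIdeal (ρ : 𝕋 →+* Module.End ℂ V) (Λ : AddSubgroup V)
    (hΛinv : ∀ t : 𝕋, ∀ x ∈ Λ, ρ t x ∈ Λ) (p : ℕ) (f : V) : Ideal 𝕋 where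
  carrier := {t | ∃ x ∈ Λ, ρ t f = (p : ℤ) • x}
  zero_mem' := ⟨0, Λ.zero_mem, by simp⟩
  add_mem' := by
    rintro s t ⟨x, hx, hsx⟩ ⟨y, hy, hty⟩
    exact ⟨x + y, Λ.add_mem hx hy, by rw [map_add, LinearMap.add_apply, hsx, hty, smul_add]⟩
  smul_mem' := by
    rintro c t ⟨x, hx, htx⟩
    refine ⟨ρ c x, hΛinv c x hx, ?_⟩
    rw [smul_eq_mul, map_mul, Module.End.mul_apply, htx, map_zsmul]

theorem mem_congIdeal {ρ : 𝕋 →+* Module.End ℂ V} {Λ : AddSubgroup V}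
    {hΛinv : ∀ t : 𝕋, ∀ x ∈ Λ, ρ t x ∈ Λ} {p : ℕ} {f : V} {t : 𝕋} :
    t ∈ congIdeal ρ Λ hΛinv p f ↔ ∃ x ∈ Λ, ρ t f = (p : ℤ) • x := Iff.rfl

/-- The restriction of an endomorphism to an invariant `ℤ`-lattice. -/
def latticeRestrict (φ : Module.End ℂ V) (L : Submodule ℤ V) (hφ : ∀ x ∈ L, φ x ∈ L) :
    Module.End ℤ L where
  toFun x := ⟨φ x, hφ x x.2⟩
  map_add' x y := Subtype.ext (by simp)
  map_smul' c x := Subtype.ext (by simp)

theorem aeval_apply_of_mem_lattice (φ : Module.End ℂ V) (L : Submodule ℤ V)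
    (hφ : ∀ x ∈ L, φ x ∈ L) (Q : ℤ[X]) :
    ∀ x (hx : x ∈ L), aeval φ Q x = ((aeval (latticeRestrict φ L hφ) Q) ⟨x, hx⟩ : V) := by
  induction Q using Polynomial.induction_on with
  | C a =>
    intro x hx
    simp
  | add P Q hP hQ =>
    intro x hx
    rw [map_add, map_add, LinearMap.add_apply, LinearMap.add_apply, hP x hx, hQ x hx]
    rfl
  | monomial n a h =>
    intro x hx
    rw [pow_succ, ← mul_assoc, map_mul, map_mul (aeval (latticeRestrict φ L hφ)), aeval_X,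
      aeval_X, Module.End.mul_apply, Module.End.mul_apply, h (φ x) (hφ x hx)]
    rfl

/-- An endomorphism of a complex vector space preserving a finitely generated spanning
`ℤ`-lattice is integral over `ℤ`. -/
theorem isIntegral_of_lattice (φ : Module.End ℂ V)
    (L : Submodule ℤ V) (hLfg : L.FG) (hLspan : Submodule.span ℂ (L : Set V) = ⊤)
    (hφ : ∀ x ∈ L, φ x ∈ L) : IsIntegral ℤ φ := by
  have : Module.Finite ℤ L := Module.Finite.iff_fg.mpr hLfg
  obtain ⟨P, hPm, hP⟩ := Algebra.IsIntegral.isIntegral (R := ℤ) (latticeRestrict φ L hφ)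
  have hP' : aeval (latticeRestrict φ L hφ) P = 0 := hP
  refine ⟨P, hPm, ?_⟩
  show aeval φ P = 0
  have h1 : ∀ x ∈ L, aeval φ P x = 0 := fun x hx => by
    rw [aeval_apply_of_mem_lattice φ L hφ P x hx, hP']; rfl
  have h2 : Submodule.span ℂ (L : Set V) ≤ LinearMap.ker (aeval φ P) :=
    Submodule.span_le.mpr fun x hx => LinearMap.mem_ker.mpr (h1 x hx)
  rw [hLspan] at h2
  exact LinearMap.ext fun x => LinearMap.mem_ker.mp (h2 Submodule.mem_top)

/-- An eigenvalue of an integral endomorphism is an algebraic integer. -/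
theorem isIntegral_eigenvalue (φ : Module.End ℂ V) (hφ : IsIntegral ℤ φ)
    {v : V} (hv : v ≠ 0) {μ : ℂ} (hμ : φ v = μ • v) : IsIntegral ℤ μ := by
  obtain ⟨P, hPm, hP⟩ := hφ
  have hzero : aeval φ P = 0 := hP
  have hev : aeval φ (P.map (algebraMap ℤ ℂ)) v = (P.map (algebraMap ℤ ℂ)).eval μ • v :=
    Module.End.aeval_apply_of_hasEigenvector
      ⟨Module.End.mem_eigenspace_iff.mpr hμ, hv⟩
  rw [aeval_map_algebraMap, hzero, LinearMap.zero_apply] at hev
  have h0 : (P.map (algebraMap ℤ ℂ)).eval μ = 0 := by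
    rcases smul_eq_zero.mp hev.symm with h | h
    · exact h
    · exact absurd h hv
  refine ⟨P, hPm, ?_⟩
  rwa [eval_map] at h0

/-- **Deligne–Serre lifting lemma** (abstract form over `ℤ`, ring-hom version). -/
theorem lifting_lemma [FiniteDimensional ℂ V] (ρ : 𝕋 →+* Module.End ℂ V)
    (hint : ∀ t, IsIntegral ℤ (ρ t)) (Λ : AddSubgroup V)
    (hΛinv : ∀ t : 𝕋, ∀ x ∈ Λ, ρ t x ∈ Λ)
    (p : ℕ) (f : V) (hf : f ∈ Λ) (hfp : ∀ x ∈ Λ, f ≠ (p : ℤ) • x) :
    ∃ v : V, v ≠ 0 ∧ ∃ (lam : 𝕋 →+* integralClosure ℤ ℂ) (m' : Ideal (integralClosure ℤ ℂ)),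
      m'.IsMaximal ∧ ((p : ℕ) : integralClosure ℤ ℂ) ∈ m' ∧
      (∀ t, ρ t v = ((lam t : integralClosure ℤ ℂ) : ℂ) • v) ∧
      ∀ (t : 𝕋) (a : ℤ), (∃ x ∈ Λ, ρ t f - a • f = (p : ℤ) • x) →
        lam t - (a : integralClosure ℤ ℂ) ∈ m' := by
  classical
  set m := congIdeal ρ Λ hΛinv p f with hm
  have hmtop : m ≠ ⊤ := by
    intro h
    have h1 : (1 : 𝕋) ∈ m := h ▸ Submodule.mem_top
    obtain ⟨x, hx, hx'⟩ := h1
    rw [map_one, Module.End.one_apply] at hx'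
    exact hfp x hx hx'
  obtain ⟨m₀, hm₀max, hmm₀⟩ := Ideal.exists_le_maximal m hmtop
  have hf0 : f ≠ 0 := fun h => hfp 0 Λ.zero_mem (by rw [h, smul_zero])
  have : Nontrivial V := ⟨⟨f, 0, hf0⟩⟩
  obtain ⟨v, hv, χ, hχ, hχm⟩ := exists_common_eigenvector_of_prime ρ m₀ (fun t ht =>
    hmm₀ ⟨0, Λ.zero_mem, by rw [ht, LinearMap.zero_apply, smul_zero]⟩)
  have hint' : ∀ t, χ t ∈ integralClosure ℤ ℂ := fun t =>
    isIntegral_eigenvalue (ρ t) (hint t) hv (hχ t)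
  let lam : 𝕋 →+* integralClosure ℤ ℂ := χ.codRestrict (integralClosure ℤ ℂ) hint'
  have hlam : ∀ t, ((lam t : integralClosure ℤ ℂ) : ℂ) = χ t := fun t => rfl
  have hlamint : lam.IsIntegral := by
    apply RingHom.IsIntegral.tower_top (Int.castRingHom 𝕋) lam
    have : lam.comp (Int.castRingHom 𝕋) = algebraMap ℤ (integralClosure ℤ ℂ) :=
      RingHom.ext_int _ _
    rw [this]
    exact algebraMap_isIntegral_iff.mpr inferInstance
  have hker : RingHom.ker lam ≤ m₀ := fun t ht => by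
    apply hχm
    rw [← hlam, (RingHom.mem_ker).mp ht]
    rfl
  have hmap : m₀.map lam ≠ ⊤ := fun h =>
    hm₀max.ne_top ((Ideal.map_eq_top_iff_of_ker_le lam hker hlamint).mp h)
  obtain ⟨m', hm'max, hm'⟩ := Ideal.exists_le_maximal _ hmap
  have hmem : ∀ t ∈ m, lam t ∈ m' := fun t ht => hm' (Ideal.mem_map_of_mem lam (hmm₀ ht))
  refine ⟨v, hv, lam, m', hm'max, ?_, fun t => hχ t, ?_⟩
  · have hp : ((p : ℕ) : 𝕋) ∈ m := by
      refine ⟨f, hf, ?_⟩
      rw [map_natCast]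
      simp
    have := hmem _ hp
    rwa [map_natCast] at this
  · rintro t a ⟨x, hx, hxe⟩
    have hta : t - (a : 𝕋) ∈ m := by
      refine ⟨x, hx, ?_⟩
      rw [map_sub, LinearMap.sub_apply, map_intCast, ← hxe]
      simp
    have := hmem _ hta
    rwa [map_sub, map_intCast] at this

end Lifting

end Fermat.Agent.S49h91
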