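import Mathlib
import Fermat.Agent.S49.H91Lifting

/-!
# Deligne–Serre lifting lemma, indexed-family version (interface for S49).
-/

set_option autoImplicit false

namespace Fermat.Agent.S49h91

open Module Polynomial

section Indexed

variable {V : Type*} [AddCommGroup V] [Module ℂ V] {ι : Type*}

theorem adjoin_preserves (T : ι → Module.End ℂ V) (Λ : AddSubgroup V)
    (hΛ : ∀ i, ∀ v ∈ Λ, T i v ∈ Λ) :
    ∀ t ∈ Algebra.adjoin ℤ (Set.range T), ∀ v ∈ Λ, t v ∈ Λ := by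
  intro t ht
  induction ht using Algebra.adjoin_induction with
  | mem x hx =>
    obtain ⟨i, rfl⟩ := hx
    exact hΛ i
  | algebraMap r =>
    intro v hv
    have : (algebraMap ℤ (Module.End ℂ V) r) v = r • v := by
      simp
    rw [this]
    exact Λ.zsmul_mem hv r
  | add x y _ _ hx hy =>
    intro v hv
    rw [LinearMap.add_apply]
    exact Λ.add_mem (hx v hv) (hy v hv)
  | mul x y _ _ hx hy =>
    intro v hv
    rw [Module.End.mul_apply]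
    exact hx _ (hy v hv)

/-- **Deligne–Serre lifting lemma**, indexed-family version, general modulus `p`. -/
theorem lifting_lemma_indexed_nat [FiniteDimensional ℂ V]
    (T : ι → Module.End ℂ V)
    (hcomm : ∀ i j, Commute (T i) (T j))
    (hint : ∀ i, IsIntegral ℤ (T i))
    (a : ι → ℤ)
    (Λ : AddSubgroup V)
    (hΛ : ∀ i, ∀ v ∈ Λ, T i v ∈ Λ)
    (p : ℕ)
    (f₀ : V) (hf₀ : f₀ ∈ Λ)
    (hf₀' : ¬ ∃ v ∈ Λ, f₀ = (p : ℂ) • v)
    (heig : ∀ i, ∃ v ∈ Λ, T i f₀ - (a i : ℂ) • f₀ = (p : ℂ) • v) :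
    ∃ (g : V) (θ : ι → integralClosure ℤ ℂ) (𝔪' : Ideal (integralClosure ℤ ℂ)),
      g ≠ 0 ∧ 𝔪'.IsMaximal ∧ ((p : ℕ) : integralClosure ℤ ℂ) ∈ 𝔪' ∧
      ∀ i, T i g = ((θ i : integralClosure ℤ ℂ) : ℂ) • g ∧
        θ i - (a i : integralClosure ℤ ℂ) ∈ 𝔪' := by
  classical
  have hcomm' : ∀ x ∈ Set.range T, ∀ y ∈ Set.range T, x * y = y * x := by
    rintro _ ⟨i, rfl⟩ _ ⟨j, rfl⟩
    exact (hcomm i j).eq
  letI : CommRing (Algebra.adjoin ℤ (Set.range T)) := Algebra.adjoinCommRingOfComm ℤ hcomm'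
  let ρ : Algebra.adjoin ℤ (Set.range T) →+* Module.End ℂ V :=
    (Algebra.adjoin ℤ (Set.range T)).val.toRingHom
  have hρ : ∀ t : Algebra.adjoin ℤ (Set.range T), ρ t = (t : Module.End ℂ V) := fun _ => rfl
  -- integrality of all elements of the adjoin
  have hintA : ∀ t : Algebra.adjoin ℤ (Set.range T), IsIntegral ℤ t := by
    rintro ⟨t, ht⟩
    induction ht using Algebra.adjoin_induction with
    | mem x hx =>
      obtain ⟨i, rfl⟩ := hx
      exact (isIntegral_algHom_iff (Algebra.adjoin ℤ (Set.range T)).val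
        Subtype.val_injective).mp (hint i)
    | algebraMap r => exact isIntegral_algebraMap
    | add x y hx hy hx' hy' => exact IsIntegral.add hx' hy'
    | mul x y hx hy hx' hy' => exact IsIntegral.mul hx' hy'
  have hintρ : ∀ t, IsIntegral ℤ (ρ t) := fun t =>
    (isIntegral_algHom_iff (Algebra.adjoin ℤ (Set.range T)).val
        Subtype.val_injective).mpr (hintA t)
  have hΛinv : ∀ t : Algebra.adjoin ℤ (Set.range T), ∀ x ∈ Λ, ρ t x ∈ Λ := fun t x hx =>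
    adjoin_preserves T Λ hΛ t.1 t.2 x hx
  have hpz : ∀ x : V, ((p : ℤ)) • x = (p : ℂ) • x := fun x => by
    rw [← Int.cast_smul_eq_zsmul ℂ]; simp
  obtain ⟨v, hv, lam, m', hm', hp, hlam, hcong⟩ := lifting_lemma ρ hintρ Λ hΛinv p f₀ hf₀
    (fun x hx h => hf₀' ⟨x, hx, by rw [h, hpz]⟩)
  refine ⟨v, fun i => lam ⟨T i, Algebra.subset_adjoin ⟨i, rfl⟩⟩, m', hv, hm', hp, fun i => ⟨?_, ?_⟩⟩
  · exact hlam ⟨T i, Algebra.subset_adjoin ⟨i, rfl⟩⟩
  · apply hcong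
    obtain ⟨x, hx, hxe⟩ := heig i
    refine ⟨x, hx, ?_⟩
    rw [hpz, ← hxe, hρ, ← Int.cast_smul_eq_zsmul ℂ]

/-- **Deligne–Serre lifting lemma**, indexed-family version modulo `3`. -/
theorem lifting_lemma_indexed [FiniteDimensional ℂ V]
    (T : ι → Module.End ℂ V)
    (hcomm : ∀ i j, Commute (T i) (T j))
    (hint : ∀ i, IsIntegral ℤ (T i))
    (a : ι → ℤ)
    (Λ : AddSubgroup V)
    (hΛ : ∀ i, ∀ v ∈ Λ, T i v ∈ Λ)
    (f₀ : V) (hf₀ : f₀ ∈ Λ)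
    (hf₀' : ¬ ∃ v ∈ Λ, f₀ = (3 : ℂ) • v)
    (heig : ∀ i, ∃ v ∈ Λ, T i f₀ - (a i : ℂ) • f₀ = (3 : ℂ) • v) :
    ∃ (g : V) (θ : ι → integralClosure ℤ ℂ) (𝔪' : Ideal (integralClosure ℤ ℂ)),
      g ≠ 0 ∧ 𝔪'.IsMaximal ∧ ((3 : ℕ) : integralClosure ℤ ℂ) ∈ 𝔪' ∧
      ∀ i, T i g = ((θ i : integralClosure ℤ ℂ) : ℂ) • g ∧
        θ i - (a i : integralClosure ℤ ℂ) ∈ 𝔪' := by
  have h3 : ((3 : ℕ) : ℂ) = 3 := by norm_num
  exact lifting_lemma_indexed_nat T hcomm hint a Λ hΛ 3 f₀ hf₀ (by rwa [h3])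
    (by simpa only [h3] using heig)

end Indexed

end Fermat.Agent.S49h91
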