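import Mathlib

/-!
# Formal Hecke recursions (pure arithmetic), used for S49 Step C.

`c : ℕ → R` is a sequence with `c (n * ℓ) + [ℓ ∣ n] e ℓ * c (n / ℓ) = lam ℓ * c n` for all primes
`ℓ` and all `n`.
-/

set_option autoImplicit false

namespace Fermat.Agent.S49h91

section Formal

variable {R : Type*} [CommRing R]

/-- The formal Hecke eigen-relation. -/
def FormalEigenRel (e lam c : ℕ → R) : Prop :=
  ∀ ℓ : ℕ, ℓ.Prime → ∀ n : ℕ,
    c (n * ℓ) + (if ℓ ∣ n then e ℓ * c (n / ℓ) else 0) = lam ℓ * c n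

theorem FormalEigenRel.eq_zero_of_one {e lam c : ℕ → R} (h : FormalEigenRel e lam c)
    (h1 : c 1 = 0) : ∀ n : ℕ, 1 ≤ n → c n = 0 := by
  intro n
  induction n using Nat.strong_induction_on with
  | _ n ih =>
  intro hn
  rcases Nat.eq_or_lt_of_le hn with rfl | hn1
  · exact h1
  · have hℓ : (n.minFac).Prime := Nat.minFac_prime (by omega)
    have hdvd : n.minFac ∣ n := Nat.minFac_dvd n
    set ℓ := n.minFac with hℓdef
    have hℓ2 : 2 ≤ ℓ := hℓ.two_le
    obtain ⟨m, hm⟩ := hdvd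
    have hmpos : 1 ≤ m := by
      rcases Nat.eq_zero_or_pos m with h0 | h0
      · rw [h0, mul_zero] at hm; omega
      · exact h0
    have hmlt : m < n := by
      rw [hm]; nlinarith
    have hrel := h ℓ hℓ m
    have hnm : n = m * ℓ := by rw [hm, mul_comm]
    rw [← hnm, ih m hmlt hmpos, mul_zero] at hrel
    by_cases hd : ℓ ∣ m
    · rw [if_pos hd] at hrel
      have hq1 : 1 ≤ m / ℓ := Nat.div_pos (Nat.le_of_dvd hmpos hd) hℓ.pos
      have hqlt : m / ℓ < n := lt_of_le_of_lt (Nat.div_le_self m ℓ) hmlt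
      rw [ih (m / ℓ) hqlt hq1, mul_zero, add_zero] at hrel
      exact hrel
    · rw [if_neg hd, add_zero] at hrel
      exact hrel

theorem FormalEigenRel.prime_eq {e lam c : ℕ → R} (h : FormalEigenRel e lam c)
    (h1 : c 1 = 1) {ℓ : ℕ} (hℓ : ℓ.Prime) : c ℓ = lam ℓ := by
  have := h ℓ hℓ 1
  rw [one_mul, if_neg (by
    intro hd
    exact hℓ.one_lt.ne' (Nat.dvd_one.mp hd)), add_zero, h1, mul_one] at this
  exact this

theorem FormalEigenRel.prime_pow {e lam c : ℕ → R} (h : FormalEigenRel e lam c)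
    (h1 : c 1 = 1) {ℓ : ℕ} (hℓ : ℓ.Prime) (r : ℕ) :
    c (ℓ ^ (r + 2)) = c ℓ * c (ℓ ^ (r + 1)) - e ℓ * c (ℓ ^ r) := by
  have := h ℓ hℓ (ℓ ^ (r + 1))
  have hdiv : ℓ ^ (r + 1) / ℓ = ℓ ^ r := by
    rw [pow_succ]; exact Nat.mul_div_cancel _ hℓ.pos
  rw [if_pos (dvd_pow_self ℓ (Nat.succ_ne_zero r)), ← pow_succ, hdiv,
    ← h.prime_eq h1 hℓ] at this
  rw [← this]
  ring

theorem FormalEigenRel.mul_of_coprime {e lam c : ℕ → R} (h : FormalEigenRel e lam c)
    (h1 : c 1 = 1) : ∀ m n : ℕ, m.Coprime n → c (m * n) = c m * c n := by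
  intro m
  induction m using Nat.strong_induction_on with
  | _ m ih =>
  intro n hmn
  rcases Nat.lt_or_ge m 2 with hm2 | hm2
  · interval_cases m
    · have hn1 : n = 1 := by simpa using hmn
      rw [hn1, mul_one, h1, mul_one]
    · rw [one_mul, h1, one_mul]
  · have hℓ : (m.minFac).Prime := Nat.minFac_prime (by omega)
    have hdvd : m.minFac ∣ m := Nat.minFac_dvd m
    set ℓ := m.minFac with hℓdef
    have hℓ2 : 2 ≤ ℓ := hℓ.two_le
    obtain ⟨m', hm'⟩ := hdvd
    have hm'pos : 1 ≤ m' := by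
      rcases Nat.eq_zero_or_pos m' with h0 | h0
      · rw [h0, mul_zero] at hm'; omega
      · exact h0
    have hm'lt : m' < m := by
      rw [hm']; nlinarith
    have hmm' : m = m' * ℓ := by rw [hm', mul_comm]
    have hcop' : m'.Coprime n := Nat.Coprime.coprime_dvd_left ⟨ℓ, hmm'⟩ hmn
    have hℓn : ℓ.Coprime n := Nat.Coprime.coprime_dvd_left ⟨m', hm'⟩ hmn
    have hrel := h ℓ hℓ (m' * n)
    have hrel' := h ℓ hℓ m'
    have e1 : m' * n * ℓ = m * n := by rw [hmm']; ring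
    rw [e1, ih m' hm'lt n hcop'] at hrel
    rw [← hmm'] at hrel'
    by_cases hd : ℓ ∣ m'
    · have hd' : ℓ ∣ m' * n := Dvd.dvd.mul_right hd n
      rw [if_pos hd'] at hrel
      rw [if_pos hd] at hrel'
      have e2 : m' * n / ℓ = m' / ℓ * n := (Nat.div_mul_right_comm hd n).symm
      have hqlt : m' / ℓ < m := lt_of_le_of_lt (Nat.div_le_self m' ℓ) hm'lt
      have hcop'' : (m' / ℓ).Coprime n :=
        Nat.Coprime.coprime_dvd_left (Nat.div_dvd_of_dvd hd) hcop'
      rw [e2, ih (m' / ℓ) hqlt n hcop''] at hrel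
      have : c (m * n) = (lam ℓ * c m' - e ℓ * c (m' / ℓ)) * c n := by
        rw [sub_mul, mul_assoc, mul_assoc, ← hrel]; ring
      rw [this, ← hrel']
      ring
    · have hd' : ¬ ℓ ∣ m' * n := fun hdd =>
        hd ((Nat.Coprime.dvd_mul_right hℓn).mp hdd)
      rw [if_neg hd', add_zero] at hrel
      rw [if_neg hd, add_zero] at hrel'
      rw [hrel, hrel', mul_assoc]

end Formal

end Fermat.Agent.S49h91
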