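import Mathlib
import Fermat.Prelude.Def_CuspForm_HeckeAlgebra
import Fermat.Prelude.Def_FLTPrelim_Modularity
import Fermat.Prelude.Thm_ModularFormClass_qCoeff_heckeT
import Fermat.Prelude.Thm_ModularFormClass_qCoeff_heckeU
import Fermat.Prelude.Thm_UpperHalfPlane_eq_of_forall_qCoeff_eq
import Fermat.Agent.S49.H91Formal

/-!
# S49 Step C: a simultaneous Hecke eigenvector gives a normalised eigenform.
-/

set_option autoImplicit false

namespace Fermat.Agent.S49h91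

open CuspForm CongruenceSubgroup ModularFormClass UpperHalfPlane
open scoped MatrixGroups

section StepC

variable {N : ℕ}

theorem one_mem_strictPeriods_Gamma0' (N : ℕ) :
    (1 : ℝ) ∈ (Gamma0 N : Subgroup (GL (Fin 2) ℝ)).strictPeriods := by
  simp [CongruenceSubgroup.strictPeriods_Gamma0]

theorem qCoeff_smul_cuspForm (c : ℂ) (f : CuspForm (Gamma0 N) 2) (n : ℕ) :
    qCoeff (⇑(c • f)) n = c * qCoeff (⇑f) n := by
  have h := ModularForm.qExpansion_smul one_pos (one_mem_strictPeriods_Gamma0' N) c f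
  have hc : (⇑(c • f) : ℍ → ℂ) = c • (⇑f : ℍ → ℂ) := rfl
  rw [qCoeff, hc, h, PowerSeries.coeff_smul]
  rfl

theorem qCoeff_zero_cuspForm (f : CuspForm (Gamma0 N) 2) : qCoeff (⇑f) 0 = 0 :=
  CuspFormClass.qExpansion_coeff_zero f one_pos (one_mem_strictPeriods_Gamma0' N)

theorem qCoeff_heckeTLin_two {ℓ : ℕ} (hℓ : ℓ.Prime) (hℓN : ¬ ℓ ∣ N)
    (f : CuspForm (Gamma0 N) 2) (n : ℕ) :
    qCoeff (⇑(CuspForm.heckeTLin 2 hℓ hℓN f)) n =
      qCoeff (⇑f) (n * ℓ) + (if ℓ ∣ n then (ℓ : ℂ) * qCoeff (⇑f) (n / ℓ) else 0) := by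
  have h := ModularFormClass.qCoeff_heckeT (k := 2) f (one_mem_strictPeriods_Gamma0' N)
    hℓ.ne_zero n
  rw [CuspForm.coe_heckeTLin_apply, h, ModularForm.coeffHeckeT_apply]
  norm_num

theorem qCoeff_heckeULin_two [NeZero N] {ℓ : ℕ} (hℓ : ℓ.Prime) (hℓN : ℓ ∣ N)
    (f : CuspForm (Gamma0 N) 2) (n : ℕ) :
    qCoeff (⇑(CuspForm.heckeULin 2 hℓN f)) n = qCoeff (⇑f) (n * ℓ) := by
  have h := ModularFormClass.qCoeff_heckeU (k := 2) f (one_mem_strictPeriods_Gamma0' N)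
    hℓ.ne_zero n
  rw [CuspForm.coe_heckeULin_apply, h, ModularForm.coeffHeckeU_apply]

theorem cuspForm_eq_zero_of_qCoeff (f : CuspForm (Gamma0 N) 2)
    (h : ∀ n, qCoeff (⇑f) n = 0) : f = 0 := by
  have hq : qExpansion 1 (⇑f) = 0 := by
    ext n
    rw [map_zero]
    exact h n
  have hcusp : Fact (IsCusp OnePoint.infty (Gamma0 N : Subgroup (GL (Fin 2) ℝ))) :=
    ⟨Subgroup.isCusp_of_mem_strictPeriods one_pos (one_mem_strictPeriods_Gamma0' N)⟩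
  have := (qExpansion_eq_zero_iff (h := 1) one_pos
    (SlashInvariantFormClass.periodic_comp_ofComplex f (one_mem_strictPeriods_Gamma0' N))
    (ModularFormClass.holo f) (ModularFormClass.bdd_at_infty f)).mp hq
  exact DFunLike.coe_injective this

/-- The level-`N` weight-two "character" `ℓ ↦ ℓ` (for `ℓ ∤ N`), `0` (for `ℓ ∣ N`). -/
noncomputable def levelChar (N : ℕ) (ℓ : ℕ) : ℂ := if ℓ ∣ N then 0 else (ℓ : ℂ)

theorem formalEigenRel_of_eigenvector [NeZero N] (v : CuspForm (Gamma0 N) 2) (θ : ℕ → ℂ)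
    (hT : ∀ (ℓ : ℕ) (hℓ : ℓ.Prime) (hℓN : ¬ ℓ ∣ N), CuspForm.heckeTLin 2 hℓ hℓN v = θ ℓ • v)
    (hU : ∀ (ℓ : ℕ) (_ : ℓ.Prime) (hℓN : ℓ ∣ N), CuspForm.heckeULin 2 hℓN v = θ ℓ • v) :
    FormalEigenRel (levelChar N) θ (fun n => qCoeff (⇑v) n) := by
  intro ℓ hℓ n
  by_cases hℓN : ℓ ∣ N
  · have h := qCoeff_heckeULin_two hℓ hℓN v n
    rw [hU ℓ hℓ hℓN, qCoeff_smul_cuspForm] at h
    simp only [levelChar, if_pos hℓN, zero_mul, ite_self, add_zero]
    exact h.symm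
  · have h := qCoeff_heckeTLin_two hℓ hℓN v n
    rw [hT ℓ hℓ hℓN, qCoeff_smul_cuspForm] at h
    simp only [levelChar, if_neg hℓN]
    exact h.symm

/-- A nonzero simultaneous eigenvector of all `T_ℓ` (`ℓ ∤ N`) and `U_ℓ` (`ℓ ∣ N`) in
`S₂(Γ₀(N))` can be normalised to a normalised eigenform with `a_ℓ = θ ℓ`. -/
theorem exists_normalizedEigenform_of_eigenvector [NeZero N] (v : CuspForm (Gamma0 N) 2)
    (hv : v ≠ 0) (θ : ℕ → ℂ)
    (hT : ∀ (ℓ : ℕ) (hℓ : ℓ.Prime) (hℓN : ¬ ℓ ∣ N), CuspForm.heckeTLin 2 hℓ hℓN v = θ ℓ • v)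
    (hU : ∀ (ℓ : ℕ) (_ : ℓ.Prime) (hℓN : ℓ ∣ N), CuspForm.heckeULin 2 hℓN v = θ ℓ • v) :
    ∃ g : CuspForm (Gamma0 N) 2, g.IsNormalizedEigenform ∧
      ∀ ℓ : ℕ, ℓ.Prime → qCoeff (⇑g) ℓ = θ ℓ := by
  have hrel := formalEigenRel_of_eigenvector v θ hT hU
  have hc1 : qCoeff (⇑v) 1 ≠ 0 := by
    intro h1
    apply hv
    apply cuspForm_eq_zero_of_qCoeff
    intro n
    rcases Nat.eq_zero_or_pos n with rfl | hn
    · exact qCoeff_zero_cuspForm v
    · exact hrel.eq_zero_of_one h1 n hn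
  set c1 := qCoeff (⇑v) 1 with hc1def
  set g : CuspForm (Gamma0 N) 2 := c1⁻¹ • v with hg
  have hgc : ∀ n, qCoeff (⇑g) n = c1⁻¹ * qCoeff (⇑v) n := fun n => qCoeff_smul_cuspForm _ _ _
  have hrelg : FormalEigenRel (levelChar N) θ (fun n => qCoeff (⇑g) n) := by
    intro ℓ hℓ n
    have := hrel ℓ hℓ n
    simp only [hgc]
    simp only at this
    split_ifs with hd
    · rw [if_pos hd] at this
      have e1 : c1⁻¹ * qCoeff (⇑v) (n * ℓ) + levelChar N ℓ * (c1⁻¹ * qCoeff (⇑v) (n / ℓ)) =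
          c1⁻¹ * (qCoeff (⇑v) (n * ℓ) + levelChar N ℓ * qCoeff (⇑v) (n / ℓ)) := by ring
      rw [e1, this]
      ring
    · rw [if_neg hd] at this
      rw [add_zero] at this ⊢
      rw [this]; ring
  have hg1 : qCoeff (⇑g) 1 = 1 := by
    rw [hgc]; exact inv_mul_cancel₀ hc1
  refine ⟨g, ⟨hg1, hrelg.mul_of_coprime hg1, ?_, ?_⟩, fun ℓ hℓ => hrelg.prime_eq hg1 hℓ⟩
  · intro p r hp hpN
    have := hrelg.prime_pow hg1 hp r
    simp only [levelChar, if_neg hpN] at this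
    exact this
  · intro p r hp hpN
    have := hrelg.prime_pow hg1 hp r
    simp only [levelChar, if_pos hpN, zero_mul, sub_zero] at this
    exact this

end StepC

end Fermat.Agent.S49h91
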