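import Mathlib
import Fermat.Agent.S49.Lattice
import Fermat.Agent.S49.H91Indexed

/-!
# S49 glue: finite-dimensionality and integrality of the Hecke family from `HasIntegralBasis`.
-/

set_option autoImplicit false

namespace Fermat.Agent.S49h91

open CuspForm CongruenceSubgroup ModularFormClass UpperHalfPlane
open Fermat.Agent.S49.Forms

section Glue

variable {N : ℕ}

theorem qIntegralSet_subset_intLattice (N : ℕ) :
    CuspForm.qIntegralSet N ⊆ (CuspForm.intLattice N 2 : Set (CuspForm (Gamma0 N) 2)) := by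
  intro f hf
  refine Submodule.subset_span ?_
  intro n
  obtain ⟨m, hm⟩ := Subring.mem_bot.mp (hf n)
  exact ⟨m, hm.symm⟩

theorem span_intLattice_eq_top (h : CuspForm.HasIntegralBasis N) :
    Submodule.span ℂ (CuspForm.intLattice N 2 : Set (CuspForm (Gamma0 N) 2)) = ⊤ := by
  rw [eq_top_iff, ← h]
  exact Submodule.span_mono (qIntegralSet_subset_intLattice N)

theorem finiteDimensional_of_hasIntegralBasis [NeZero N] (h : CuspForm.HasIntegralBasis N) :
    FiniteDimensional ℂ (CuspForm (Gamma0 N) 2) := by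
  obtain ⟨s, hs⟩ := CuspForm.intLattice_fg N 2
  refine Module.finite_def.mpr ⟨s, ?_⟩
  rw [eq_top_iff, ← span_intLattice_eq_top h]
  refine Submodule.span_le.mpr ?_
  intro x hx
  have hx' : x ∈ Submodule.span ℤ (s : Set (CuspForm (Gamma0 N) 2)) := by
    rw [hs]; exact hx
  exact Submodule.span_subset_span ℤ ℂ _ hx'

theorem heckeFam_mem_heckeAlgebra [NeZero N] (ℓ : Nat.Primes) :
    heckeFam N ℓ ∈ CuspForm.heckeAlgebra N 2 ∅ :=
  Algebra.subset_adjoin (heckeFam_mem_generators ℓ)

theorem heckeFam_mem_intLattice [NeZero N] (ℓ : Nat.Primes) (f : CuspForm (Gamma0 N) 2)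
    (hf : f ∈ CuspForm.intLattice N 2) : heckeFam N ℓ f ∈ CuspForm.intLattice N 2 :=
  CuspForm.mem_intLattice_of_mem_heckeAlgebra (by norm_num) (heckeFam_mem_heckeAlgebra ℓ) hf

theorem isIntegral_heckeFam [NeZero N] (h : CuspForm.HasIntegralBasis N) (ℓ : Nat.Primes) :
    IsIntegral ℤ (heckeFam N ℓ) :=
  isIntegral_of_lattice (heckeFam N ℓ) (CuspForm.intLattice N 2) (CuspForm.intLattice_fg N 2)
    (span_intLattice_eq_top h) (heckeFam_mem_intLattice ℓ)

end Glue

end Fermat.Agent.S49h91
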