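import Mathlib
import Fermat.Prelude.Def_CuspForm_IntegralLattice
import Fermat.Prelude.Def_FormalHecke_Eigensystem
import Fermat.Agent.S49.Lattice
import Fermat.Agent.S49.H91Glue

/-!
# S49 Step A: the lattice-realised form is a mod 3 eigenvector.
-/

set_option autoImplicit false

namespace Fermat.Agent.S49h91

open CuspForm CongruenceSubgroup ModularFormClass UpperHalfPlane EisensteinWeightOne
open Fermat.Agent.S49.Forms

section StepA

variable {N : ℕ}

/-- `χ₋₃(n) ≡ n (mod 3)`. -/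
theorem three_dvd_chiNegThree_sub (n : ℕ) : (3 : ℤ) ∣ chiNegThree n - (n : ℤ) := by
  unfold chiNegThree
  have h := Nat.mod_lt n (show 0 < 3 by norm_num)
  have hn : (n : ℤ) = 3 * ((n / 3 : ℕ) : ℤ) + ((n % 3 : ℕ) : ℤ) := by
    exact_mod_cast (Nat.div_add_mod n 3).symm
  split_ifs with h1 h2
  · rw [hn, h1]; exact ⟨-((n / 3 : ℕ) : ℤ), by push_cast; ring⟩
  · rw [hn, h2]; exact ⟨-((n / 3 : ℕ) : ℤ) - 1, by push_cast; ring⟩
  · have h0 : n % 3 = 0 := by omega
    rw [hn, h0]; exact ⟨-((n / 3 : ℕ) : ℤ), by push_cast; ring⟩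

/-- The weight one Eisenstein series is `≡ 1 (mod 3)`. -/
theorem e1Chi3In_int_eq :
    e1Chi3In ℤ = 1 + 3 * PowerSeries.mk (fun n => if n = 0 then 0 else 2 * sigmaChi n) := by
  ext n
  simp only [e1Chi3In, e1Chi3, PowerSeries.coeff_map, PowerSeries.coeff_mk, map_add,
    PowerSeries.coeff_one, Int.coe_castRingHom, Int.cast_id]
  have h3 : (3 : PowerSeries ℤ) = PowerSeries.C (3 : ℤ) := by
    rw [map_ofNat]
  rw [h3, PowerSeries.coeff_C_mul, PowerSeries.coeff_mk]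
  split_ifs with h
  · simp
  · ring

theorem three_dvd_coeff_bridgeProduct_sub (a : ℕ → ℤ) (n : ℕ) :
    (3 : ℤ) ∣ (bridgeProduct a).coeff n - a n := by
  unfold bridgeProduct
  rw [e1Chi3In_int_eq, mul_add, mul_one, map_add, PowerSeries.coeff_mk, add_sub_cancel_left,
    ← mul_assoc, mul_comm _ (3 : PowerSeries ℤ), mul_assoc]
  have h3 : (3 : PowerSeries ℤ) = PowerSeries.C (3 : ℤ) := by
    rw [map_ofNat]
  rw [h3, PowerSeries.coeff_C_mul]
  exact dvd_mul_right _ _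

/-- Membership in the integral lattice, unfolded. -/
theorem mem_intLattice_iff (g : CuspForm (Gamma0 N) 2) :
    g ∈ CuspForm.intLattice N 2 ↔ ∀ n : ℕ, ∃ m : ℤ, qCoeff ⇑g n = (m : ℂ) := by
  constructor
  · intro hg
    refine Submodule.span_induction
      (p := fun (g : CuspForm (Gamma0 N) 2) _ => ∀ n : ℕ, ∃ m : ℤ, qCoeff ⇑g n = (m : ℂ))
      ?_ ?_ ?_ ?_ hg
    · intro x hx; exact hx
    · intro n; exact ⟨0, by rw [qc_zero_form]; simp⟩
    · intro x y _ _ hx hy n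
      obtain ⟨m₁, h₁⟩ := hx n
      obtain ⟨m₂, h₂⟩ := hy n
      exact ⟨m₁ + m₂, by rw [qc_add, h₁, h₂]; push_cast; ring⟩
    · intro c x _ hx n
      obtain ⟨m, hm⟩ := hx n
      refine ⟨c * m, ?_⟩
      have : c • x = (c : ℂ) • x := (Int.cast_smul_eq_zsmul ℂ c x).symm
      rw [this, qc_smul, hm]; push_cast; ring
  · intro hg
    exact Submodule.subset_span hg

/-- Data extracted from `IsLatticeRealized` together with the eigensystem property. -/
theorem stepA [NeZero N] {a : ℕ → ℤ}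
    (heig : FormalHecke.IsEigensystem
      (fun ℓ => if ℓ ∣ N then 0 else ((chiNegThree ℓ : ℤ) : ℤ)) a)
    (hreal : CuspForm.IsLatticeRealized N a) :
    ∃ f₀ : CuspForm (Gamma0 N) 2, f₀ ∈ (CuspForm.intLattice N 2).toAddSubgroup ∧
      (¬ ∃ v ∈ (CuspForm.intLattice N 2).toAddSubgroup, f₀ = (3 : ℂ) • v) ∧
      ∀ ℓ : Nat.Primes, ∃ v ∈ (CuspForm.intLattice N 2).toAddSubgroup,
        heckeFam N ℓ f₀ - ((a ℓ : ℤ) : ℂ) • f₀ = (3 : ℂ) • v := by
  obtain ⟨f₀, hf₀, af, haf, hcong⟩ := hreal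
  have hafa : ∀ n, (3 : ℤ) ∣ af n - a n := fun n => by
    have := dvd_add (hcong n) (three_dvd_coeff_bridgeProduct_sub a n)
    simpa using this
  have hf₀L : f₀ ∈ CuspForm.intLattice N 2 := qIntegralSet_subset_intLattice N hf₀
  refine ⟨f₀, hf₀L, ?_, ?_⟩
  · rintro ⟨v, hv, hfv⟩
    obtain ⟨m, hm⟩ := (mem_intLattice_iff v).mp hv 1
    have h1 : (af 1 : ℂ) = 3 * (m : ℂ) := by
      rw [haf 1, hfv, qc_smul, hm]
    have h1' : af 1 = 3 * m := by exact_mod_cast h1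
    have h2 := hafa 1
    rw [h1', heig.1] at h2
    have : (3 : ℤ) ∣ 1 := by
      have h3 : (3 : ℤ) ∣ 3 * m := dvd_mul_right 3 m
      have := dvd_sub h3 h2
      simp at this
    norm_num at this
  · intro ℓ
    -- the integer sequence of the difference
    have hrel := heig.2 ℓ ℓ.2
    have hdiv : ∀ n : ℕ, (3 : ℤ) ∣ af (n * ℓ) +
        (if (ℓ : ℕ) ∣ N then 0 else ((ℓ : ℕ) : ℤ)) * (if (ℓ : ℕ) ∣ n then af (n / ℓ) else 0)
          - a ℓ * af n := by
      intro n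
      have hr := hrel n
      simp only at hr
      -- a (ℓ * n) + e ℓ * (if ℓ ∣ n then a (n/ℓ) else 0) = a ℓ * a n
      have e1 : (3 : ℤ) ∣ af (n * ℓ) - a (ℓ * n) := by
        rw [mul_comm n]; exact hafa _
      have e2 : (3 : ℤ) ∣ a ℓ * af n - a ℓ * a n := by
        rw [← mul_sub]; exact Dvd.dvd.mul_left (hafa n) _
      have e3 : (3 : ℤ) ∣ (if (ℓ : ℕ) ∣ N then 0 else ((ℓ : ℕ) : ℤ)) *
          (if (ℓ : ℕ) ∣ n then af (n / ℓ) else 0) -
          (if (ℓ : ℕ) ∣ N then 0 else chiNegThree ℓ) *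
            (if (ℓ : ℕ) ∣ n then a (n / ℓ) else 0) := by
        by_cases hN : (ℓ : ℕ) ∣ N
        · simp [hN]
        · simp only [if_neg hN]
          by_cases hn : (ℓ : ℕ) ∣ n
          · simp only [if_pos hn]
            have t1 := three_dvd_chiNegThree_sub ℓ
            have t2 := hafa (n / ℓ)
            have : ((ℓ : ℕ) : ℤ) * af (n / ℓ) - chiNegThree ℓ * a (n / ℓ) =
                ((ℓ : ℕ) : ℤ) * (af (n / ℓ) - a (n / ℓ)) -
                  (chiNegThree ℓ - ((ℓ : ℕ) : ℤ)) * a (n / ℓ) := by ring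
            rw [this]
            exact dvd_sub (Dvd.dvd.mul_left t2 _) (Dvd.dvd.mul_right t1 _)
          · simp [hn]
      have key : af (n * ℓ) +
          (if (ℓ : ℕ) ∣ N then 0 else ((ℓ : ℕ) : ℤ)) * (if (ℓ : ℕ) ∣ n then af (n / ℓ) else 0)
            - a ℓ * af n =
          (af (n * ℓ) - a (ℓ * n)) +
          ((if (ℓ : ℕ) ∣ N then 0 else ((ℓ : ℕ) : ℤ)) *
            (if (ℓ : ℕ) ∣ n then af (n / ℓ) else 0) -
            (if (ℓ : ℕ) ∣ N then 0 else chiNegThree ℓ) *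
              (if (ℓ : ℕ) ∣ n then a (n / ℓ) else 0)) -
          (a ℓ * af n - a ℓ * a n) := by
        linear_combination hr
      rw [key]
      exact dvd_sub (dvd_add e1 e3) e2
    choose d hd using hdiv
    refine ⟨(3 : ℂ)⁻¹ • (heckeFam N ℓ f₀ - ((a ℓ : ℤ) : ℂ) • f₀), ?_, ?_⟩
    · show _ ∈ CuspForm.intLattice N 2
      rw [mem_intLattice_iff]
      intro n
      refine ⟨d n, ?_⟩
      rw [qc_smul, qc_sub, qc_smul, qc_heckeFam]
      have hdn := hd n
      have hdn' : ((af (n * ℓ) +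
        (if (ℓ : ℕ) ∣ N then 0 else ((ℓ : ℕ) : ℤ)) * (if (ℓ : ℕ) ∣ n then af (n / ℓ) else 0)
          - a ℓ * af n : ℤ) : ℂ) = ((3 * d n : ℤ) : ℂ) := by rw [hdn]
      push_cast at hdn'
      rw [← haf (n * ℓ), ← haf n]
      have hq : (if (ℓ : ℕ) ∣ n then qCoeff ⇑f₀ (n / ℓ) else 0) =
          (if (ℓ : ℕ) ∣ n then ((af (n / ℓ) : ℤ) : ℂ) else 0) := by
        split_ifs
        · rw [haf]
        · rfl
      rw [hq]
      have h3 : (3 : ℂ) ≠ 0 := by norm_num
      rw [inv_mul_eq_div, div_eq_iff h3]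
      rw [mul_comm (d n : ℂ) 3, ← hdn']
    · rw [smul_smul, mul_inv_cancel₀ (by norm_num : (3 : ℂ) ≠ 0), one_smul]

end StepA

end Fermat.Agent.S49h91
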