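import Mathlib
import Fermat.Prelude.Def_FormalHecke_Eigensystem

/-!
# S49, part 2: a formal Hecke eigensystem is multiplicative and satisfies the prime-power recursion
-/

set_option autoImplicit false

namespace Fermat.Agent.S49.Forms

variable {R : Type*} [CommRing R]

theorem formal_pow_rec {e c : ℕ → R} (h : FormalHecke.IsEigensystem e c) (ℓ r : ℕ)
    (hℓ : ℓ.Prime) : c (ℓ ^ (r + 2)) = c ℓ * c (ℓ ^ (r + 1)) - e ℓ * c (ℓ ^ r) := by
  have := h.2 ℓ hℓ (ℓ ^ (r + 1))
  have hdvd : ℓ ∣ ℓ ^ (r + 1) := dvd_pow_self ℓ (Nat.succ_ne_zero r)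
  rw [if_pos hdvd, pow_succ ℓ r, Nat.mul_div_cancel _ hℓ.pos, ← pow_succ, ← pow_succ'] at this
  rw [← this]
  ring

theorem formal_pow_mul {e c : ℕ → R} (h : FormalHecke.IsEigensystem e c) {ℓ : ℕ}
    (hℓ : ℓ.Prime) {n : ℕ} (hn : ¬ ℓ ∣ n) (k : ℕ) : c (ℓ ^ k * n) = c (ℓ ^ k) * c n := by
  induction k using Nat.strong_induction_on with
  | _ k ih =>
    match k with
    | 0 => simp [h.1]
    | 1 =>
      have := h.2 ℓ hℓ n
      rw [if_neg hn, mul_zero, add_zero] at this
      simpa using this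
    | (k + 2) =>
      have h1 := ih k (by omega)
      have h2 := ih (k + 1) (by omega)
      have := h.2 ℓ hℓ (ℓ ^ (k + 1) * n)
      have hdvd : ℓ ∣ ℓ ^ (k + 1) * n := Dvd.dvd.mul_right (dvd_pow_self ℓ (Nat.succ_ne_zero k)) n
      have hdiv : ℓ ^ (k + 1) * n / ℓ = ℓ ^ k * n := by
        rw [pow_succ, mul_assoc, mul_comm ℓ n, ← mul_assoc, Nat.mul_div_cancel _ hℓ.pos]
      rw [if_pos hdvd, hdiv, ← mul_assoc, ← pow_succ', h1, h2] at this
      rw [formal_pow_rec h ℓ k hℓ]
      linear_combination this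

theorem formal_mul_coprime {e c : ℕ → R} (h : FormalHecke.IsEigensystem e c) :
    ∀ m n : ℕ, m.Coprime n → c (m * n) = c m * c n := by
  intro m
  induction m using Nat.recOnPosPrimePosCoprime with
  | prime_pow p k hp hk =>
    intro n hn
    have hpn : ¬ p ∣ n := by
      intro hdvd
      have : p ∣ Nat.gcd (p ^ k) n := Nat.dvd_gcd (dvd_pow_self p hk.ne') hdvd
      rw [hn] at this
      exact hp.one_lt.ne' (Nat.dvd_one.mp this)
    exact formal_pow_mul h hp hpn k
  | zero =>
    intro n hn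
    have : n = 1 := by simpa using hn
    subst this
    simp [h.1]
  | one =>
    intro n _
    simp [h.1]
  | coprime a b ha hb hab iha ihb =>
    intro n hn
    have han : a.Coprime n := Nat.Coprime.coprime_mul_right hn
    have hbn : b.Coprime n := Nat.Coprime.coprime_mul_left hn
    rw [mul_assoc, iha (b * n) (Nat.Coprime.mul_right hab han), ihb n hbn, iha b hab, mul_assoc]

theorem formal_isRecursive {e c : ℕ → R} (h : FormalHecke.IsEigensystem e c) :
    FormalHecke.IsRecursive e c :=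
  ⟨h.1, formal_mul_coprime h, fun ℓ r hℓ => formal_pow_rec h ℓ r hℓ⟩

end Fermat.Agent.S49.Forms
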